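import Fermat.Agent.CycloGrowth.ZetaStrip
import Mathlib.Analysis.SpecialFunctions.Gamma.Beta
import Mathlib.Analysis.SpecialFunctions.Trigonometric.DerivHyp

/-!
# The completed zeta function on the critical line

`hardyH y = Λ(1/2 + 2iy)` is real, continuous and at most `C (1 + |y|) e^(-π |y| / 2)`.

The bound for the Gamma factor comes from `Γ(1/4 + iy) Γ(1/4) = Γ(1/2 + iy) B(1/4 + iy, 1/4)`,
since `|B(1/4 + iy, 1/4)| ≤ B(1/4, 1/4)` and `|Γ(1/2 + iy)|² = π / cosh (π y)`.
-/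

set_option autoImplicit false

noncomputable section

namespace FA.HardyZeros

open Complex MeasureTheory
open Real (pi_pos)
open scoped ComplexConjugate Real

/-- The point `1/2 + 2 i y`. -/
def linePt (y : ℝ) : ℂ := 1 / 2 + ((2 * y : ℝ) : ℂ) * I

theorem linePt_re (y : ℝ) : (linePt y).re = 1 / 2 := by simp [linePt]

theorem linePt_ne_zero (y : ℝ) : linePt y ≠ 0 := fun h => by
  have := linePt_re y
  rw [h] at this
  norm_num at this

theorem linePt_ne_one (y : ℝ) : linePt y ≠ 1 := fun h => by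
  have := linePt_re y
  rw [h] at this
  norm_num at this

theorem conj_linePt (y : ℝ) : conj (linePt y) = 1 - linePt y := by
  (apply Complex.ext <;> simp [linePt]); norm_num

/-- The completed zeta function on the line, as a real number. -/
def hardyH (y : ℝ) : ℝ := (completedRiemannZeta (linePt y)).re

theorem completed_eq_mul {s : ℂ} (hs : 0 < s.re) :
    completedRiemannZeta s = Gammaℝ s * riemannZeta s := by
  have hs0 : s ≠ 0 := fun h => by simp [h] at hs
  rw [riemannZeta_def_of_ne_zero hs0, mul_div_cancel₀ _ (Gammaℝ_ne_zero_of_re_pos hs)]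

theorem conj_Gammaℝ (s : ℂ) : conj (Gammaℝ s) = Gammaℝ (conj s) := by
  have h : (π : ℂ).arg ≠ π := by
    rw [Complex.arg_ofReal_of_nonneg pi_pos.le]
    exact pi_pos.ne
  have e : conj ((π : ℂ) ^ (-s / 2)) = (π : ℂ) ^ conj (-s / 2) := by
    rw [cpow_conj _ _ h, Complex.conj_ofReal]
  rw [Gammaℝ_def, Gammaℝ_def, map_mul, ← Complex.Gamma_conj, e]
  simp only [map_div₀, map_neg, map_ofNat]

theorem ofReal_hardyH (y : ℝ) : (hardyH y : ℂ) = completedRiemannZeta (linePt y) := by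
  rw [hardyH, ← Complex.conj_eq_iff_re]
  have h : 0 < (linePt y).re := by rw [linePt_re]; norm_num
  have h' : 0 < (conj (linePt y)).re := by rw [Complex.conj_re]; exact h
  rw [completed_eq_mul h, map_mul, conj_Gammaℝ, ← riemannZeta_conj, ← completed_eq_mul h',
    ← completed_eq_mul h, conj_linePt, completedRiemannZeta_one_sub]

theorem hardyH_neg (y : ℝ) : hardyH (-y) = hardyH y := by
  rw [hardyH, hardyH, show linePt (-y) = 1 - linePt y by simp [linePt]; ring,
    completedRiemannZeta_one_sub]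

theorem continuous_hardyH : Continuous hardyH := by
  refine Complex.continuous_re.comp (continuous_iff_continuousAt.2 fun y => ?_)
  have h1 : ContinuousAt linePt y := by unfold linePt; fun_prop
  exact (differentiableAt_completedZeta (linePt_ne_zero y) (linePt_ne_one y)).continuousAt.comp h1

theorem hardyH_eq_zero_iff (y : ℝ) :
    hardyH y = 0 ↔ riemannZeta (1 / 2 + ((2 * y : ℝ) : ℂ) * I) = 0 := by
  have h : 0 < (linePt y).re := by rw [linePt_re]; norm_num
  rw [← Complex.ofReal_eq_zero, ofReal_hardyH, completed_eq_mul h, mul_eq_zero]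
  rw [or_iff_right (Gammaℝ_ne_zero_of_re_pos h)]
  rfl

/-- `|Γ(1/2 + iy)|² cosh (π y) = π`. -/
theorem normSq_Gamma_half (y : ℝ) :
    ‖Complex.Gamma (1 / 2 + y * I)‖ ^ 2 * Real.cosh (π * y) = π := by
  have hc : conj (1 / 2 + y * I : ℂ) = 1 - (1 / 2 + y * I) := by
    (apply Complex.ext <;> simp); norm_num
  have hs : Complex.sin (π * (1 / 2 + y * I)) = (Real.cosh (π * y) : ℂ) := by
    rw [show (π : ℂ) * (1 / 2 + y * I) = π / 2 - -(((π * y : ℝ) : ℂ) * I) by push_cast; ring,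
      Complex.sin_pi_div_two_sub, Complex.cos_neg, Complex.cos_mul_I, Complex.ofReal_cosh]
  have h := Complex.Gamma_mul_Gamma_one_sub (1 / 2 + y * I)
  rw [← hc, Complex.Gamma_conj, Complex.mul_conj', hs,
    eq_div_iff (Complex.ofReal_ne_zero.2 (Real.cosh_pos _).ne')] at h
  exact_mod_cast h

theorem norm_Gamma_half_le (y : ℝ) :
    ‖Complex.Gamma (1 / 2 + y * I)‖ ≤ 3 * Real.exp (-(π * |y| / 2)) := by
  have h := normSq_Gamma_half y
  have h1 : Real.exp (π * |y|) / 2 ≤ Real.cosh (π * y) := by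
    rw [← Real.cosh_abs (π * y), abs_mul, abs_of_pos pi_pos, Real.cosh_eq]
    linarith [Real.exp_pos (-(π * |y|))]
  have hn := norm_nonneg (Complex.Gamma (1 / 2 + y * I))
  have h3 : ‖Complex.Gamma (1 / 2 + y * I)‖ ^ 2 * Real.exp (π * |y|) ≤ 9 := by
    have := mul_le_mul_of_nonneg_left h1 (sq_nonneg ‖Complex.Gamma (1 / 2 + y * I)‖)
    rw [h] at this
    linarith [Real.pi_lt_four]
  refine (sq_le_sq₀ hn (by positivity)).1 ?_
  have h4 : (3 * Real.exp (-(π * |y| / 2))) ^ 2 = 9 / Real.exp (π * |y|) := by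
    rw [mul_pow, ← Real.exp_nat_mul, eq_div_iff (Real.exp_pos _).ne', mul_assoc, ← Real.exp_add]
    push_cast
    ring_nf
    norm_num
  rw [h4, le_div_iff₀ (Real.exp_pos _)]
  exact h3

theorem norm_betaIntegral_le (u v : ℂ) :
    ‖Complex.betaIntegral u v‖ ≤
      ∫ x : ℝ in (0 : ℝ)..1, x ^ (u.re - 1) * (1 - x) ^ (v.re - 1) := by
  refine (intervalIntegral.norm_integral_le_integral_norm zero_le_one).trans (le_of_eq ?_)
  refine intervalIntegral.integral_congr_uIoo fun x hx => ?_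
  rw [Set.uIoo_of_le zero_le_one] at hx
  rw [norm_mul, norm_cpow_eq_rpow_re_of_pos hx.1, ← Complex.ofReal_one, ← Complex.ofReal_sub,
    norm_cpow_eq_rpow_re_of_pos (sub_pos.2 hx.2)]
  simp

theorem exists_norm_Gamma_quarter_le :
    ∃ C, 0 ≤ C ∧
      ∀ y : ℝ, ‖Complex.Gamma (1 / 4 + y * I)‖ ≤ C * Real.exp (-(π * |y| / 2)) := by
  obtain ⟨B, hB⟩ : ∃ B : ℝ, ∀ y : ℝ, ‖Complex.betaIntegral (1 / 4 + y * I) (1 / 4)‖ ≤ B :=
    ⟨∫ x : ℝ in (0 : ℝ)..1, x ^ ((1 / 4 : ℝ) - 1) * (1 - x) ^ ((1 / 4 : ℝ) - 1), fun y => by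
      convert norm_betaIntegral_le (1 / 4 + y * I) (1 / 4)
        using 3; simp⟩
  have hB0 : 0 ≤ B := (norm_nonneg _).trans (hB 0)
  have hG : Complex.Gamma (1 / 4) ≠ 0 := Complex.Gamma_ne_zero_of_re_pos (by simp)
  refine ⟨3 * B / ‖Complex.Gamma (1 / 4)‖, by positivity, fun y => ?_⟩
  have h := congrArg (fun z : ℂ => ‖z‖)
    (Complex.Gamma_mul_Gamma_eq_betaIntegral (s := 1 / 4 + y * I) (t := 1 / 4) (by simp) (by simp))
  simp only [norm_mul] at h
  rw [show (1 / 4 + y * I + 1 / 4 : ℂ) = 1 / 2 + y * I by ring] at h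
  rw [div_mul_eq_mul_div, le_div_iff₀ (norm_pos_iff.2 hG), h]
  calc ‖Complex.Gamma (1 / 2 + y * I)‖ * ‖Complex.betaIntegral (1 / 4 + y * I) (1 / 4)‖
      ≤ 3 * Real.exp (-(π * |y| / 2)) * B :=
        mul_le_mul (norm_Gamma_half_le y) (hB y) (norm_nonneg _) (by positivity)
    _ = _ := by ring

/-- `|ζ(s)| ≤ 1 + 2 |s|` for `re s = 1/2`. -/
theorem norm_riemannZeta_line_le {s : ℂ} (hs : s.re = 1 / 2) :
    ‖riemannZeta s‖ ≤ 1 + 2 * ‖s‖ := by
  have hne : s ≠ 1 := fun h => by rw [h] at hs; norm_num at hs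
  have hF := CycloGrowth.norm_fracInt_le (s := s) (by linarith)
  rw [hs] at hF
  rw [riemannZeta_eq_inv_sub_mul hne, CycloGrowth.riemannZeta₁_eq (by linarith),
    show (s - 1)⁻¹ * (s - (s - 1) * s * CycloGrowth.fracInt s) =
      s / (s - 1) - s * CycloGrowth.fracInt s by
      have := sub_ne_zero.2 hne
      field_simp]
  refine (norm_sub_le _ _).trans (add_le_add ?_ ?_)
  · have : ‖s‖ = ‖s - 1‖ := by
      have hc : conj s = 1 - s := by
        (apply Complex.ext <;> simp [hs]); norm_num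
      rw [← Complex.norm_conj, hc, norm_sub_rev]
    rw [norm_div, this, div_self (norm_ne_zero_iff.2 (sub_ne_zero.2 hne))]
  · rw [norm_mul, mul_comm (2 : ℝ)]
    exact mul_le_mul_of_nonneg_left (by norm_num at hF; linarith) (norm_nonneg _)

/-- **The decay on the critical line.** -/
theorem exists_abs_hardyH_le :
    ∃ C, 0 ≤ C ∧ ∀ y : ℝ, |hardyH y| ≤ C * (1 + |y|) * Real.exp (-(π * |y| / 2)) := by
  obtain ⟨C, hC0, hC⟩ := exists_norm_Gamma_quarter_le
  refine ⟨4 * C, by positivity, fun y => ?_⟩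
  have h : 0 < (linePt y).re := by rw [linePt_re]; norm_num
  rw [← Real.norm_eq_abs, ← Complex.norm_real, ofReal_hardyH, completed_eq_mul h, norm_mul,
    Gammaℝ_def, norm_mul, norm_cpow_eq_rpow_re_of_pos pi_pos,
    show linePt y / 2 = 1 / 4 + y * I by simp [linePt]; ring]
  have h1 : π ^ (-linePt y / 2).re ≤ 1 :=
    Real.rpow_le_one_of_one_le_of_nonpos (by linarith [Real.two_le_pi]) (by
      simp [linePt_re]; norm_num)
  have h2 : ‖riemannZeta (linePt y)‖ ≤ 4 * (1 + |y|) := by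
    refine (norm_riemannZeta_line_le (linePt_re y)).trans ?_
    have := Complex.norm_le_abs_re_add_abs_im (linePt y)
    rw [linePt_re, show (linePt y).im = 2 * y by simp [linePt], abs_mul, abs_two,
      abs_of_pos (by norm_num : (0 : ℝ) < 1 / 2)] at this
    linarith [abs_nonneg y]
  calc π ^ (-linePt y / 2).re * ‖Complex.Gamma (1 / 4 + y * I)‖ * ‖riemannZeta (linePt y)‖
      ≤ 1 * (C * Real.exp (-(π * |y| / 2))) * (4 * (1 + |y|)) :=
        mul_le_mul (mul_le_mul h1 (hC y) (norm_nonneg _) zero_le_one) h2 (norm_nonneg _)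
          (by positivity)
    _ = _ := by ring

end FA.HardyZeros
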