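import Fermat.Agent.HardyZeros.Transform

/-!
# Hardy's theorem

If `ζ(1/2 + it)` had finitely many real zeros, then `hardyH` would have constant sign beyond some
`T`, and a high moment `∫ y^(2n) hardyH y e^(αy) dy` would exceed, in absolute value, the bound
`3π` which it obeys as `α` increases to `π/2`.
-/

set_option autoImplicit false

noncomputable section

namespace FA.HardyZeros

open Complex MeasureTheory Filter Topology Set
open Real (pi_pos)
open scoped Real

theorem hardyJ_eq_ofReal (k : ℕ) (α : ℝ) :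
    hardyJ k (α : ℂ) = ((∫ y, y ^ k * hardyH y * Real.exp (α * y) : ℝ) : ℂ) := by
  rw [hardyJ, ← integral_complex_ofReal]
  congr 1
  funext y
  simp [momentFn]

theorem mem_strip_ofReal {α : ℝ} (h0 : 0 ≤ α) (h1 : α < π / 2) : (α : ℂ) ∈ strip := by
  simp only [strip, Set.mem_preimage, Complex.ofReal_re, Set.mem_Ioo]
  exact ⟨by linarith [pi_pos], h1⟩

theorem integrable_moment (k : ℕ) {α : ℝ} (h0 : 0 ≤ α) (h1 : α < π / 2) :
    Integrable fun y : ℝ => y ^ k * hardyH y * Real.exp (α * y) := by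
  refine ((integrable_momentFn k (mem_strip_ofReal h0 h1)).re).congr
    (Eventually.of_forall fun y => ?_)
  simp [momentFn, ← Complex.ofReal_pow, ← Complex.ofReal_mul, ← Complex.ofReal_exp]

/-- Each moment is at most `3π` near `π/2`, uniformly in the order. -/
theorem eventually_abs_moment_le (k : ℕ) :
    ∀ᶠ α : ℝ in 𝓝[<] (π / 2), |∫ y, y ^ k * hardyH y * Real.exp (α * y)| ≤ 3 * π := by
  have h := (tendsto_iteratedDeriv_thetaRot k).norm
  rw [norm_zero] at h
  filter_upwards [h.eventually (gt_mem_nhds one_pos),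
    Ioo_mem_nhdsLT (show (0 : ℝ) < π / 2 by positivity)] with α hα hI
  rw [iteratedDeriv_thetaRot k (mem_strip_ofReal hI.1.le hI.2), thetaSum, hardyJ_eq_ofReal] at hα
  obtain ⟨M, hM⟩ : ∃ M : ℝ, M = ∫ y, y ^ k * hardyH y * Real.exp (α * y) := ⟨_, rfl⟩
  rw [← hM] at hα ⊢
  have hb : ∀ a : ℂ, a.re = 0 → ‖a‖ ≤ 1 → ‖a ^ k * cexp (a * α)‖ ≤ 1 := by
    intro a ha ha'
    rw [norm_mul, norm_pow, Complex.norm_exp]
    simp only [Complex.mul_re, ha, Complex.ofReal_re, Complex.ofReal_im, zero_mul, mul_zero,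
      sub_zero, Real.exp_zero, mul_one]
    exact pow_le_one₀ (norm_nonneg _) ha'
  have b1 := hb (I / 4) (by simp) (by simp; norm_num)
  have b2 := hb (-I / 4) (by simp) (by simp; norm_num)
  rw [show I * (α : ℂ) / 4 = I / 4 * α by ring, show -I * (α : ℂ) / 4 = -I / 4 * α by ring] at hα
  have key : ‖((M : ℝ) : ℂ) / π‖ ≤ 3 := by
    have e : ((M : ℝ) : ℂ) / π = ((M : ℂ) / π + (I / 4) ^ k * cexp (I / 4 * α) +
        (-I / 4) ^ k * cexp (-I / 4 * α)) - (I / 4) ^ k * cexp (I / 4 * α) -
        (-I / 4) ^ k * cexp (-I / 4 * α) := by ring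
    rw [e]
    refine (norm_sub_le _ _).trans ?_
    refine (add_le_add (norm_sub_le _ _) le_rfl).trans ?_
    linarith
  rwa [norm_div, Complex.norm_real, Complex.norm_real, Real.norm_eq_abs, Real.norm_eq_abs,
    abs_of_pos pi_pos, div_le_iff₀ pi_pos] at key

/-- A continuous function without zeros on `[T, ∞)` has constant sign there. -/
theorem exists_sign {T : ℝ} (hne : ∀ y, T ≤ y → hardyH y ≠ 0) :
    ∃ e : ℝ, |e| = 1 ∧ ∀ y, T ≤ y → 0 < e * hardyH y := by
  rcases (hne T le_rfl).lt_or_gt with h | h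
  · refine ⟨-1, by simp, fun y hy => ?_⟩
    rcases (hne y hy).lt_or_gt with h' | h'
    · linarith
    · obtain ⟨c, hc, hc'⟩ :=
        intermediate_value_Icc hy continuous_hardyH.continuousOn ⟨h.le, h'.le⟩
      exact absurd hc' (hne c hc.1)
  · refine ⟨1, by simp, fun y hy => ?_⟩
    rcases (hne y hy).lt_or_gt with h' | h'
    · obtain ⟨c, hc, hc'⟩ :=
        intermediate_value_Icc' hy continuous_hardyH.continuousOn ⟨h'.le, h.le⟩
      exact absurd hc' (hne c hc.1)
    · linarith

theorem not_eventually_ne_zero {T : ℝ} (hT : 1 ≤ T) : ∃ y, T ≤ y ∧ hardyH y = 0 := by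
  by_contra hcon
  push Not at hcon
  obtain ⟨e, he1, he⟩ := exists_sign hcon
  obtain ⟨C, hC0, hC⟩ := exists_abs_hardyH_le
  obtain ⟨x₀, hx₀, hmin⟩ := (isCompact_Icc (a := T + 1) (b := T + 2)).exists_isMinOn
    (nonempty_Icc.2 (by linarith)) (continuous_const.mul continuous_hardyH).continuousOn
    (f := fun y => e * hardyH y)
  obtain ⟨m, hm, hm_le⟩ : ∃ m, 0 < m ∧ ∀ y ∈ Icc (T + 1) (T + 2), m ≤ e * hardyH y :=
    ⟨e * hardyH x₀, he x₀ (by linarith [hx₀.1]), fun y hy => hmin hy⟩
  obtain ⟨K, hK0, hK⟩ : ∃ K, 0 ≤ K ∧ ∀ y : ℝ, |y| ≤ T → ∀ α : ℝ, |α| ≤ 2 →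
      |hardyH y| * Real.exp (α * y) ≤ K := by
    refine ⟨C * (1 + T) * Real.exp (2 * T), by positivity, fun y hy α hα => ?_⟩
    refine mul_le_mul ((hC y).trans ?_) (Real.exp_le_exp.2 ?_) (Real.exp_pos _).le (by positivity)
    · refine (mul_le_of_le_one_right (by positivity) (Real.exp_le_one_iff.2 ?_)).trans
        (mul_le_mul_of_nonneg_left (by linarith) hC0)
      have : 0 ≤ π * |y| / 2 := by positivity
      linarith
    · calc α * y ≤ |α * y| := le_abs_self _
        _ = |α| * |y| := abs_mul _ _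
        _ ≤ 2 * T := mul_le_mul hα hy (abs_nonneg _) (by norm_num)
  -- choose the order
  have hT0 : 0 < T := by linarith
  obtain ⟨n, hn⟩ : ∃ n : ℕ, 2 * T * K + 3 * π < m * ((T + 1) / T) ^ (2 * n) := by
    have hq : 1 < ((T + 1) / T) ^ 2 := one_lt_pow₀ ((one_lt_div hT0).2 (by linarith)) two_ne_zero
    obtain ⟨n, hn⟩ := pow_unbounded_of_one_lt ((2 * T * K + 3 * π) / m) hq
    exact ⟨n, by rw [pow_mul]; exact (div_lt_iff₀' hm).1 hn⟩
  obtain ⟨α, hα, hI⟩ := ((eventually_abs_moment_le (2 * n)).and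
    (Ioo_mem_nhdsLT (show (0 : ℝ) < π / 2 by positivity))).exists
  have hint := (integrable_moment (2 * n) hI.1.le hI.2).const_mul e
  have hcI : ∀ (a b c : ℝ), Integrable ((Icc a b).indicator fun _ => c) := fun a b c =>
    (integrable_indicator_iff measurableSet_Icc).2
      (integrableOn_const (by rw [Real.volume_Icc]; exact ENNReal.ofReal_ne_top))
  have hlow : (m * (T + 1) ^ (2 * n)) - (2 * T) * (K * T ^ (2 * n)) ≤
      ∫ y, e * (y ^ (2 * n) * hardyH y * Real.exp (α * y)) := by
    have h := integral_mono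
      ((hcI (T + 1) (T + 2) (m * (T + 1) ^ (2 * n))).sub (hcI (-T) T (K * T ^ (2 * n)))) hint
      (fun y => ?_)
    · rw [integral_sub' (hcI _ _ _) (hcI _ _ _), integral_indicator_const _ measurableSet_Icc,
        integral_indicator_const _ measurableSet_Icc, Real.volume_real_Icc_of_le (by linarith),
        Real.volume_real_Icc_of_le (by linarith), smul_eq_mul, smul_eq_mul] at h
      linarith
    · simp only [Pi.sub_apply]
      have hpow : 0 ≤ y ^ (2 * n) := (even_two_mul n).pow_nonneg y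
      by_cases hy : |y| ≤ T
      · rw [indicator_of_notMem (fun hh => by linarith [(abs_le.1 hy).2, hh.1]),
          indicator_of_mem (mem_Icc.2 (abs_le.1 hy))]
        have hyn : y ^ (2 * n) ≤ T ^ (2 * n) := by
          rw [← (even_two_mul n).pow_abs]
          exact pow_le_pow_left₀ (abs_nonneg _) hy _
        have h2 : |e * (y ^ (2 * n) * hardyH y * Real.exp (α * y))| ≤ K * T ^ (2 * n) := by
          rw [abs_mul, he1, one_mul, abs_mul, abs_mul, abs_of_nonneg hpow, Real.abs_exp,
            mul_assoc, mul_comm K]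
          refine mul_le_mul hyn (hK y hy α ?_) (by positivity) (by positivity)
          rw [abs_of_pos hI.1]
          linarith [hI.2, Real.pi_lt_four]
        linarith [(abs_le.1 h2).1]
      · push Not at hy
        rw [indicator_of_notMem (fun hh : y ∈ Icc (-T) T =>
          absurd (abs_le.2 hh) (not_le.2 hy)), sub_zero]
        have hH : hardyH |y| = hardyH y := by
          rcases abs_choice y with h | h <;> rw [h]
          exact hardyH_neg y
        have hpos := he |y| hy.le
        rw [hH] at hpos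
        by_cases hy2 : y ∈ Icc (T + 1) (T + 2)
        · rw [indicator_of_mem hy2]
          have h1 : (1 : ℝ) ≤ Real.exp (α * y) :=
            Real.one_le_exp (mul_nonneg hI.1.le (by linarith [hy2.1]))
          have h2 : (T + 1) ^ (2 * n) ≤ y ^ (2 * n) :=
            pow_le_pow_left₀ (by linarith) hy2.1 _
          calc m * (T + 1) ^ (2 * n) = m * (T + 1) ^ (2 * n) * 1 := (mul_one _).symm
            _ ≤ (e * hardyH y) * y ^ (2 * n) * Real.exp (α * y) :=
              mul_le_mul (mul_le_mul (hm_le y hy2) h2 (by positivity) hpos.le) h1 zero_le_one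
                (by positivity)
            _ = _ := by ring
        · rw [indicator_of_notMem hy2,
            show e * (y ^ (2 * n) * hardyH y * Real.exp (α * y)) =
              (e * hardyH y) * y ^ (2 * n) * Real.exp (α * y) by ring]
          positivity
  rw [integral_const_mul] at hlow
  have hup : e * (∫ y, y ^ (2 * n) * hardyH y * Real.exp (α * y)) ≤ 3 * π :=
    (le_abs_self _).trans (by rw [abs_mul, he1, one_mul]; exact hα)
  have hTp : 1 ≤ T ^ (2 * n) := one_le_pow₀ hT
  rw [div_pow, mul_div_assoc', lt_div_iff₀ (by positivity)] at hn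
  nlinarith [pi_pos]

/-- **Hardy's theorem.** -/
theorem infinite_zeros : {t : ℝ | riemannZeta (1 / 2 + t * I) = 0}.Infinite := by
  intro hfin
  obtain ⟨B, hB⟩ := hfin.bddAbove
  obtain ⟨y, hy, hy0⟩ := not_eventually_ne_zero (T := max 1 (B + 1)) (le_max_left _ _)
  have hmem : (2 * y) ∈ {t : ℝ | riemannZeta (1 / 2 + t * I) = 0} := (hardyH_eq_zero_iff y).1 hy0
  have := hB hmem
  linarith [le_max_right 1 (B + 1), le_max_left 1 (B + 1)]

end FA.HardyZeros
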