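import Mathlib.NumberTheory.ModularForms.JacobiTheta.OneVariable
import Mathlib.Analysis.Complex.Liouville
import Mathlib.Analysis.SpecialFunctions.Complex.Analytic
import Mathlib.Analysis.SpecialFunctions.Exp
import Mathlib.Analysis.Real.Pi.Bounds

/-!
# The theta series near the cusp `1`

`ϑ(1 + τ) = 2 ϑ(4τ) - ϑ(τ)`, so `thetaRot z = e^(iz/4) ϑ(i e^(iz))` and all its derivatives at
`z = α` tend to `0` as `α` increases to `π/2`.
-/

set_option autoImplicit false

noncomputable section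

namespace FA.HardyZeros

open Complex Filter Topology Metric
open Real (pi_pos)
open scoped Real

/-- The theta series on the rotated half line. -/
def thetaRot (z : ℂ) : ℂ := cexp (I * z / 4) * jacobiTheta (I * cexp (I * z))

/-- The strip `|re z| < π/2`. -/
def strip : Set ℂ := Complex.re ⁻¹' Set.Ioo (-(π / 2)) (π / 2)

theorem isOpen_strip : IsOpen strip := isOpen_Ioo.preimage Complex.continuous_re

theorem isPreconnected_strip : IsPreconnected strip :=
  ((convex_Ioo (-(π / 2)) (π / 2)).linear_preimage Complex.reLm).isPreconnected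

theorem re_exp_I_mul_pos {z : ℂ} (hz : z ∈ strip) : 0 < (cexp (I * z)).re := by
  rw [Complex.exp_re]
  have : (I * z).im = z.re := by simp
  rw [this]
  exact mul_pos (Real.exp_pos _) (Real.cos_pos_of_mem_Ioo hz)

theorem differentiableAt_thetaRot {z : ℂ} (hz : z ∈ strip) :
    DifferentiableAt ℂ thetaRot z := by
  have h : 0 < (I * cexp (I * z)).im := by
    simpa using re_exp_I_mul_pos hz
  have h2 : DifferentiableAt ℂ (fun z => I * cexp (I * z)) z := by fun_prop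
  exact DifferentiableAt.mul (by fun_prop)
    (DifferentiableAt.comp (f := fun z : ℂ => I * cexp (I * z)) z
      (differentiableAt_jacobiTheta h) h2)

/-- `ϑ(1 + τ) = 2 ϑ(4τ) - ϑ(τ)`. -/
theorem jacobiTheta_one_add {τ : ℂ} (hτ : 0 < τ.im) :
    jacobiTheta (1 + τ) = 2 * jacobiTheta (4 * τ) - jacobiTheta τ := by
  have h4 : 0 < (4 * τ).im := by simp [hτ]
  have h1 : 0 < (1 + τ).im := by simp [hτ]
  have e0 := hasSum_jacobiTheta₂_term 0 hτ
  have e1 := hasSum_jacobiTheta₂_term 0 h1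
  have e4 := hasSum_jacobiTheta₂_term 0 h4
  simp only [jacobiTheta₂_term, mul_zero, zero_add, ← jacobiTheta_eq_jacobiTheta₂] at e0 e1 e4
  have hs := e1.add e0
  have hfun : ∀ n : ℤ, cexp (π * I * (n : ℂ) ^ 2 * (1 + τ)) + cexp (π * I * (n : ℂ) ^ 2 * τ) =
      (1 + (-1 : ℂ) ^ (n ^ 2)) * cexp (π * I * (n : ℂ) ^ 2 * τ) := fun n => by
    rw [add_mul, one_mul, add_comm, mul_add, mul_one, Complex.exp_add]
    congr 2
    rw [← Complex.exp_pi_mul_I, ← Complex.exp_int_mul]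
    push_cast
    ring_nf
  simp only [hfun] at hs
  have hinj : Function.Injective fun n : ℤ => 2 * n := fun a b h => by simpa using h
  have hs' := (hinj.hasSum_iff (fun n hn => ?_)).2 hs
  · have : (fun n : ℤ => (1 + (-1 : ℂ) ^ (n ^ 2)) * cexp (π * I * (n : ℂ) ^ 2 * τ)) ∘
        (fun n : ℤ => 2 * n) = fun n : ℤ => 2 * cexp (π * I * (n : ℂ) ^ 2 * (4 * τ)) := by
      funext n
      have he : Even ((2 * n) ^ 2) := by simp [Int.even_pow, parity_simps]
      simp only [Function.comp, he.neg_one_zpow]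
      push_cast
      ring_nf
    rw [this] at hs'
    linear_combination hs'.unique (e4.mul_left 2)
  · have ho : Odd (n ^ 2) := by
      refine Odd.pow ?_
      rcases Int.even_or_odd n with ⟨k, hk⟩ | h
      · exact absurd ⟨k, show 2 * k = n by omega⟩ hn
      · exact h
    simp [ho.neg_one_zpow]

theorem norm_jacobiTheta_sub_one_le' {τ : ℂ} (hτ : 1 ≤ τ.im) :
    ‖jacobiTheta τ - 1‖ ≤ 4 * Real.exp (-π * τ.im) := by
  refine (norm_jacobiTheta_sub_one_le (by linarith)).trans ?_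
  have h1 : Real.exp (-π * τ.im) ≤ 1 / 2 := by
    refine (Real.exp_le_exp.2 (by nlinarith [Real.pi_gt_three] : -π * τ.im ≤ -1)).trans ?_
    rw [Real.exp_neg, inv_le_comm₀ (Real.exp_pos _) (by norm_num)]
    linarith [Real.add_one_le_exp 1]
  refine mul_le_mul_of_nonneg_right ?_ (Real.exp_pos _).le
  rw [div_le_iff₀ (by linarith)]
  linarith

/-- The transformation formula in the form `ϑ(τ) = (-iτ)^(-1/2) ϑ(-1/τ)`. -/
theorem jacobiTheta_inv {τ : ℂ} (hτ : 0 < τ.im) :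
    jacobiTheta τ = ((-I * τ) ^ (1 / 2 : ℂ))⁻¹ * jacobiTheta (-1 / τ) := by
  have h := jacobiTheta_S_smul ⟨τ, hτ⟩
  rw [UpperHalfPlane.modular_S_smul] at h
  have h0 : τ ≠ 0 := fun h => by simp [h] at hτ
  have h1 : (-I * τ) ^ (1 / 2 : ℂ) ≠ 0 := by simp [cpow_eq_zero_iff, h0]
  rw [show -1 / τ = (-τ)⁻¹ by rw [neg_div, one_div, inv_neg], h, ← mul_assoc,
    inv_mul_cancel₀ h1, one_mul]

/-- Near the cusp: with `x` in the right half plane and small, `ϑ(1 + ix)` is tiny. -/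
theorem norm_jacobiTheta_cusp_le {x : ℂ} (hx : 0 < x.re) (hx' : 4 * ‖x‖ ^ 2 ≤ x.re) :
    ‖jacobiTheta (1 + I * x)‖ ≤
      8 * ‖x‖ ^ (-(1 / 2) : ℝ) * Real.exp (-π * (x.re / (4 * ‖x‖ ^ 2))) := by
  have hx0 : x ≠ 0 := fun h => by simp [h] at hx
  have him : ∀ c : ℝ, 0 < c → 0 < ((c : ℂ) * (I * x)).im := fun c hc => by simp [hc, hx]
  have h0 : 0 < (I * x).im := by simp [hx]
  have hinv : ∀ c : ℝ, 0 < c → (-1 / ((c : ℂ) * (I * x))).im = x.re / (c * ‖x‖ ^ 2) :=
    fun c hc => by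
    rw [show -1 / ((c : ℂ) * (I * x)) = ((c⁻¹ : ℝ) : ℂ) * (I * x⁻¹) by
      push_cast; field_simp; simp [neg_div]]
    simp [Complex.inv_re, Complex.normSq_eq_norm_sq]
    field_simp
  have hpow : (-I * (4 * (I * x))) ^ (1 / 2 : ℂ) = 2 * (-I * (I * x)) ^ (1 / 2 : ℂ) := by
    have hne : -I * (I * x) ≠ 0 := by simp [hx0]
    rw [show -I * (4 * (I * x)) = ((4 : ℝ) : ℂ) * (-I * (I * x)) by push_cast; ring,
      cpow_def_of_ne_zero (mul_ne_zero (by norm_num) hne), cpow_def_of_ne_zero hne,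
      Complex.log_ofReal_mul (by norm_num : (0 : ℝ) < 4) hne, add_mul, Complex.exp_add,
      show ((Real.log 4 : ℝ) : ℂ) * (1 / 2) = ((Real.log 2 : ℝ) : ℂ) by
        rw [show (4 : ℝ) = 2 ^ 2 by norm_num, Real.log_pow]; push_cast; ring,
      ← Complex.ofReal_exp, Real.exp_log two_pos, Complex.ofReal_ofNat]
  rw [jacobiTheta_one_add h0, jacobiTheta_inv h0,
    jacobiTheta_inv (show 0 < (4 * (I * x)).im by simpa using him 4 (by norm_num)), hpow,
    show -I * (I * x) = x by rw [← mul_assoc, neg_mul, I_mul_I, neg_neg, one_mul], mul_inv]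
  rw [show (2 : ℂ) * (2⁻¹ * (x ^ (1 / 2 : ℂ))⁻¹ * jacobiTheta (-1 / (4 * (I * x)))) -
      (x ^ (1 / 2 : ℂ))⁻¹ * jacobiTheta (-1 / (I * x)) = (x ^ (1 / 2 : ℂ))⁻¹ *
      ((jacobiTheta (-1 / (4 * (I * x))) - 1) - (jacobiTheta (-1 / (I * x)) - 1)) by ring,
    norm_mul]
  have hn : 0 < ‖x‖ := norm_pos_iff.2 hx0
  have hc : ‖(x ^ (1 / 2 : ℂ))⁻¹‖ = ‖x‖ ^ (-(1 / 2) : ℝ) := by
    rw [norm_inv, show (1 / 2 : ℂ) = ((1 / 2 : ℝ) : ℂ) by push_cast; rfl, norm_cpow_real,
      Real.rpow_neg hn.le]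
  have e1 := hinv 1 one_pos
  have e4 := hinv 4 (by norm_num)
  push_cast at e1 e4
  rw [one_mul] at e1
  have g4 : 1 ≤ x.re / (4 * ‖x‖ ^ 2) := (one_le_div (by positivity)).2 hx'
  have g1 : x.re / (4 * ‖x‖ ^ 2) ≤ x.re / (1 * ‖x‖ ^ 2) := by
    gcongr
    norm_num
  rw [hc, mul_comm (8 : ℝ), mul_assoc]
  refine mul_le_mul_of_nonneg_left ((norm_sub_le _ _).trans ?_) (Real.rpow_nonneg hn.le _)
  refine (add_le_add (norm_jacobiTheta_sub_one_le' (by rw [e4]; exact g4))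
    (norm_jacobiTheta_sub_one_le' (by rw [e1]; exact g4.trans g1))).trans ?_
  rw [e4, e1]
  have : Real.exp (-π * (x.re / (1 * ‖x‖ ^ 2))) ≤ Real.exp (-π * (x.re / (4 * ‖x‖ ^ 2))) :=
    Real.exp_le_exp.2 (by nlinarith [pi_pos])
  linarith

/-- The bound on a disc about `π/2 - δ`. -/
theorem norm_thetaRot_le {δ : ℝ} (hδ : 0 < δ) (hδ' : δ ≤ 1 / 500) {z : ℂ}
    (hz : ‖z - ((π / 2 - δ : ℝ) : ℂ)‖ ≤ δ / 4) :
    z ∈ strip ∧ ‖thetaRot z‖ ≤ 100 / δ * Real.exp (-π / (200 * δ)) := by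
  obtain ⟨u, rfl⟩ : ∃ u : ℂ, z = ((π / 2 : ℝ) : ℂ) + u :=
    ⟨z - ((π / 2 : ℝ) : ℂ), by ring⟩
  have hud : ‖u + (δ : ℂ)‖ ≤ δ / 4 := by
    refine le_trans (le_of_eq ?_) hz
    congr 1
    push_cast
    ring
  have hre : u.re ≤ -(3 * δ / 4) ∧ -(5 * δ / 4) ≤ u.re := by
    have := (Complex.abs_re_le_norm (u + (δ : ℂ))).trans hud
    rw [Complex.add_re, Complex.ofReal_re, abs_le] at this
    constructor <;> linarith [this.1, this.2]
  have him : |u.im| ≤ δ / 4 := by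
    have := (Complex.abs_im_le_norm (u + (δ : ℂ))).trans hud
    simpa using this
  have hu : ‖u‖ ≤ 5 * δ / 4 := by
    have := norm_sub_le (u + (δ : ℂ)) (δ : ℂ)
    rw [add_sub_cancel_right, Complex.norm_real, Real.norm_eq_abs, abs_of_pos hδ] at this
    linarith
  have hzs : ((π / 2 : ℝ) : ℂ) + u ∈ strip := by
    simp only [strip, Set.mem_preimage, Complex.add_re, Complex.ofReal_re, Set.mem_Ioo]
    constructor <;> linarith [hre.1, hre.2, Real.pi_gt_three]
  refine ⟨hzs, ?_⟩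
  obtain ⟨x, hxdef⟩ : ∃ x : ℂ, x = I * (cexp (I * u) - 1) := ⟨_, rfl⟩
  have hexp : cexp (I * ((π / 2 : ℝ) + u)) = I + x := by
    rw [hxdef, mul_add, Complex.exp_add, show I * ((π / 2 : ℝ) : ℂ) = π / 2 * I by push_cast; ring,
      Complex.exp_pi_div_two_mul_I]
    ring
  have hxn : ‖x‖ ≤ 5 * δ / 2 := by
    rw [hxdef, norm_mul, Complex.norm_I, one_mul]
    refine (Complex.norm_exp_sub_one_le ?_).trans ?_ <;> rw [norm_mul, Complex.norm_I, one_mul] <;>
      linarith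
  have hxr : δ / 8 ≤ x.re := by
    have h1 : x.re = Real.exp (-u.im) * Real.sin (-u.re) := by
      rw [hxdef]
      simp [Complex.exp_im, Complex.exp_re]
    have h2 : (1 / 2 : ℝ) * (-u.re) ≤ Real.sin (-u.re) := by
      have := Real.mul_le_sin (x := -u.re) (by linarith) (by linarith [Real.pi_gt_three])
      refine le_trans (mul_le_mul_of_nonneg_right ?_ (by linarith)) this
      rw [le_div_iff₀ pi_pos]
      linarith [Real.pi_lt_four]
    have h3 : (1 / 2 : ℝ) ≤ Real.exp (-u.im) := by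
      have := Real.add_one_le_exp (-u.im)
      linarith [(abs_le.1 him).2]
    rw [h1]
    have := mul_le_mul h3 h2 (by linarith) (Real.exp_pos _).le
    linarith
  have hx2 : ‖x‖ ^ 2 ≤ 25 * δ ^ 2 / 4 := by
    have := pow_le_pow_left₀ (norm_nonneg _) hxn 2
    linarith [show (5 * δ / 2) ^ 2 = 25 * δ ^ 2 / 4 by ring]
  have hcond : 4 * ‖x‖ ^ 2 ≤ x.re := by nlinarith
  have hx0 : 0 < x.re := by linarith
  have hxlo : δ / 8 ≤ ‖x‖ := hxr.trans (Complex.re_le_norm x)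
  have hJ : jacobiTheta (I * cexp (I * (((π / 2 : ℝ) : ℂ) + u))) = jacobiTheta (1 + I * x) := by
    rw [hexp, show (1 : ℂ) + I * x = 2 + (I * (I + x)) by
      rw [mul_add, I_mul_I]; ring, jacobiTheta_two_add]
  rw [thetaRot, norm_mul, hJ]
  have e1 : ‖cexp (I * (((π / 2 : ℝ) : ℂ) + u) / 4)‖ ≤ 3 / 2 := by
    rw [Complex.norm_exp]
    have : (I * (((π / 2 : ℝ) : ℂ) + u) / 4).re ≤ 1 / 4 := by
      simp
      linarith [(abs_le.1 him).1]
    refine (Real.exp_le_exp.2 this).trans ?_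
    have := Real.exp_bound_div_one_sub_of_interval (x := (1 / 4 : ℝ)) (by norm_num) (by norm_num)
    norm_num at this
    linarith
  have e2 : ‖x‖ ^ (-(1 / 2) : ℝ) ≤ 8 / δ := by
    refine (Real.rpow_le_rpow_of_nonpos (by positivity) hxlo (by norm_num)).trans ?_
    rw [Real.rpow_neg (by positivity), show 8 / δ = (δ / 8)⁻¹ from (inv_div δ 8).symm]
    refine inv_anti₀ (by positivity) ?_
    calc δ / 8 = (δ / 8) ^ (1 : ℝ) := (Real.rpow_one _).symm
      _ ≤ _ := Real.rpow_le_rpow_of_exponent_ge (by positivity) (by linarith) (by norm_num)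
  have e3 : Real.exp (-π * (x.re / (4 * ‖x‖ ^ 2))) ≤ Real.exp (-π / (200 * δ)) := by
    refine Real.exp_le_exp.2 ?_
    rw [show -π / (200 * δ) = -π * (1 / (200 * δ)) by ring]
    refine mul_le_mul_of_nonpos_left ?_ (by linarith [pi_pos])
    rw [div_le_div_iff₀ (by positivity) (mul_pos four_pos (pow_pos (by linarith) 2))]
    nlinarith
  calc _ ≤ 3 / 2 * (8 * ‖x‖ ^ (-(1 / 2) : ℝ) * Real.exp (-π * (x.re / (4 * ‖x‖ ^ 2)))) :=
        mul_le_mul e1 (norm_jacobiTheta_cusp_le hx0 hcond) (norm_nonneg _) (by norm_num)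
    _ ≤ 3 / 2 * (8 * (8 / δ) * Real.exp (-π / (200 * δ))) := by gcongr
    _ ≤ _ := by
        rw [show 3 / 2 * (8 * (8 / δ) * Real.exp (-π / (200 * δ))) =
          96 / δ * Real.exp (-π / (200 * δ)) by ring]
        gcongr
        norm_num

/-- **Flatness.** Every derivative of `thetaRot` tends to `0` at `π/2`. -/
theorem tendsto_iteratedDeriv_thetaRot (k : ℕ) :
    Tendsto (fun α : ℝ => iteratedDeriv k thetaRot α) (𝓝[<] (π / 2)) (𝓝 0) := by
  refine squeeze_zero_norm'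
    (a := fun α => k.factorial * 4 ^ k * 100 * ((π / 2 - α)⁻¹ ^ (k + 1) *
      Real.exp (-(π / 200) * (π / 2 - α)⁻¹))) ?_ ?_
  · filter_upwards [Ioo_mem_nhdsLT (show π / 2 - 1 / 500 < π / 2 by norm_num)] with α hα
    obtain ⟨δ, hδ, rfl⟩ : ∃ δ, δ = π / 2 - α ∧ α = π / 2 - δ := ⟨_, rfl, by ring⟩
    have hδ0 : 0 < δ := by linarith [hα.2]
    have hball : ∀ z ∈ closedBall (((π / 2 - δ : ℝ)) : ℂ) (δ / 4),
        z ∈ strip ∧ ‖thetaRot z‖ ≤ 100 / δ * Real.exp (-π / (200 * δ)) := fun z hz =>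
      norm_thetaRot_le hδ0 (by linarith [hα.1]) (by rwa [← dist_eq_norm, ← mem_closedBall])
    refine (norm_iteratedDeriv_le_of_forall_mem_sphere_norm_le k (R := δ / 4) (by linarith)
      (DifferentiableOn.diffContOnCl_ball (fun z hz =>
        (differentiableAt_thetaRot (hball z hz).1).differentiableWithinAt) subset_rfl)
      (fun z hz => (hball z (sphere_subset_closedBall hz)).2)).trans (le_of_eq ?_)
    rw [sub_sub_cancel, show -π / (200 * δ) = -(π / 200) * δ⁻¹ by ring, div_pow, inv_pow,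
      pow_succ]
    field_simp
  · have h1 : Tendsto (fun α : ℝ => (π / 2 - α)⁻¹) (𝓝[<] (π / 2)) atTop := by
      refine tendsto_inv_nhdsGT_zero.comp (tendsto_nhdsWithin_iff.2 ⟨?_, ?_⟩)
      · refine tendsto_nhdsWithin_of_tendsto_nhds ?_
        exact Continuous.tendsto' (by fun_prop) _ _ (by ring)
      · filter_upwards [self_mem_nhdsWithin] with α (hα : α < π / 2)
        exact Set.mem_Ioi.2 (by linarith)
    have h2 := ((tendsto_rpow_mul_exp_neg_mul_atTop_nhds_zero (k + 1 : ℕ) (π / 200)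
      (by positivity)).comp h1).const_mul ((k.factorial : ℝ) * 4 ^ k * 100)
    simp only [Function.comp_def, Real.rpow_natCast, mul_zero] at h2
    exact h2

end FA.HardyZeros
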