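import Fermat.Agent.HardyZeros.Decay
import Fermat.Agent.HardyZeros.Theta
import Mathlib.Analysis.MellinInversion
import Mathlib.Analysis.Calculus.ParametricIntegral

/-!
# The theta series as a transform of the completed zeta function

The moments `hardyJ k z = ∫ y^k Λ(1/2 + 2iy) e^(zy) dy` are holomorphic on `|re z| < π/2`, and
`thetaRot z = hardyJ 0 z / π + e^(iz/4) + e^(-iz/4)` there, by Mellin inversion.
-/

set_option autoImplicit false

noncomputable section

namespace FA.HardyZeros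

open Complex MeasureTheory Filter Topology Set
open Real (pi_pos)
open scoped Real

/-- The kernel `ϑ(ix) - 1 - x^(-1/2)`. -/
def thetaG (x : ℝ) : ℂ := jacobiTheta (I * x) - 1 - (x : ℂ) ^ (-(1 / 2) : ℂ)

/-- The correction between `thetaG` and the modified kernel. -/
def thetaCorr (x : ℝ) : ℂ :=
  (Ioc 0 1).indicator (fun _ => (1 : ℂ)) x +
    (Ioi 1).indicator (fun t : ℝ => (t : ℂ) ^ (-(1 / 2) : ℂ)) x

theorem evenKernel_zero_eq {x : ℝ} :
    ((HurwitzZeta.evenKernel 0 x : ℝ) : ℂ) = jacobiTheta (I * x) := by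
  rw [← QuotientAddGroup.mk_zero, HurwitzZeta.evenKernel_def, jacobiTheta_eq_jacobiTheta₂]
  simp

theorem thetaG_eq {x : ℝ} (hx : 0 < x) (hx1 : x ≠ 1) :
    thetaG x = (HurwitzZeta.hurwitzEvenFEPair 0).f_modif x - thetaCorr x := by
  have hf : (HurwitzZeta.hurwitzEvenFEPair 0).f x = jacobiTheta (I * x) := evenKernel_zero_eq
  have h0 : (HurwitzZeta.hurwitzEvenFEPair 0).f₀ = 1 := if_pos rfl
  have hp : ((x ^ (-(1 / 2) : ℝ) : ℝ) : ℂ) = (x : ℂ) ^ (-(1 / 2) : ℂ) := by
    rw [Complex.ofReal_cpow hx.le]; push_cast; rfl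
  rcases lt_or_gt_of_ne hx1 with h | h
  · rw [thetaG, thetaCorr, WeakFEPair.f_modif, Pi.add_apply,
      indicator_of_notMem (notMem_Ioi.2 h.le), indicator_of_mem (mem_Ioo.2 ⟨hx, h⟩),
      indicator_of_mem (mem_Ioc.2 ⟨hx, h.le⟩), indicator_of_notMem (notMem_Ioi.2 h.le), hf]
    simp only [HurwitzZeta.hurwitzEvenFEPair, one_mul, smul_eq_mul, mul_one, hp]
    ring
  · rw [thetaG, thetaCorr, WeakFEPair.f_modif, Pi.add_apply,
      indicator_of_mem (mem_Ioi.2 h), indicator_of_notMem (notMem_Ioo_of_ge h.le),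
      indicator_of_notMem (notMem_Ioc_of_gt h), indicator_of_mem (mem_Ioi.2 h), hf, h0]
    ring

theorem hasMellin_cpow_Ioi {s : ℂ} (hs : s.re < 1 / 2) :
    HasMellin ((Ioi 1).indicator fun t : ℝ => (t : ℂ) ^ (-(1 / 2) : ℂ)) s
      (1 / (1 / 2 - s)) := by
  have ha : (s - 1 + (-(1 / 2) : ℂ)).re < -1 := by simp; linarith
  have he : EqOn (fun t : ℝ => (t : ℂ) ^ (s - 1) •
      (Ioi 1).indicator (fun t : ℝ => (t : ℂ) ^ (-(1 / 2) : ℂ)) t)
      ((Ioi 1).indicator fun t : ℝ => (t : ℂ) ^ (s - 1 + (-(1 / 2) : ℂ))) (Ioi 0) := by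
    intro t ht
    by_cases h : t ∈ Ioi (1 : ℝ)
    · simp [h, cpow_add _ _ (Complex.ofReal_ne_zero.2 (ne_of_gt (mem_Ioi.1 ht)))]
    · simp [h]
  refine ⟨?_, ?_⟩
  · refine IntegrableOn.congr_fun ?_ he.symm measurableSet_Ioi
    exact ((integrable_indicator_iff measurableSet_Ioi).2
      (integrableOn_Ioi_cpow_of_lt ha one_pos)).integrableOn
  · rw [mellin, setIntegral_congr_fun measurableSet_Ioi he,
      setIntegral_indicator measurableSet_Ioi, inter_eq_right.2 (Ioi_subset_Ioi zero_le_one),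
      integral_Ioi_cpow_of_lt ha one_pos, Complex.ofReal_one, one_cpow,
      show s - 1 + (-(1 / 2) : ℂ) + 1 = -(1 / 2 - s) by ring, div_neg, neg_div, neg_neg]

/-- **The Mellin transform** of the theta kernel in the strip `0 < re s < 1/2`. -/
theorem hasMellin_thetaG {s : ℂ} (h0 : 0 < s.re) (h1 : s.re < 1 / 2) :
    HasMellin thetaG s (2 * completedRiemannZeta (2 * s)) := by
  have hP := (HurwitzZeta.hurwitzEvenFEPair 0).isStrongFEPair_toStrongFEPair.hasMellin s
  have hPf : (HurwitzZeta.hurwitzEvenFEPair 0).toStrongFEPair.f =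
      (HurwitzZeta.hurwitzEvenFEPair 0).f_modif := rfl
  rw [hPf] at hP
  have hc := hasMellin_add (hasMellin_one_Ioc h0).1 (hasMellin_cpow_Ioi h1).1
  rw [(hasMellin_one_Ioc h0).2, (hasMellin_cpow_Ioi h1).2] at hc
  have hd := hasMellin_sub hP.1 hc.1
  rw [hc.2] at hd
  have hae : (fun t : ℝ => (t : ℂ) ^ (s - 1) •
      ((HurwitzZeta.hurwitzEvenFEPair 0).f_modif t - thetaCorr t)) =ᵐ[volume.restrict (Ioi 0)]
      fun t : ℝ => (t : ℂ) ^ (s - 1) • thetaG t := by
    filter_upwards [ae_restrict_mem measurableSet_Ioi,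
      ae_restrict_of_ae (compl_mem_ae_iff.2 (measure_singleton (1 : ℝ)))] with t ht ht1
    rw [thetaG_eq ht ht1]
  refine ⟨hd.1.congr hae, ?_⟩
  have hv : 2 * completedRiemannZeta (2 * s) =
      (HurwitzZeta.hurwitzEvenFEPair 0).Λ₀ s - (1 / s + 1 / (1 / 2 - s)) := by
    rw [completedRiemannZeta_eq, completedRiemannZeta₀, HurwitzZeta.completedHurwitzZetaEven₀,
      show 2 * s / 2 = s by ring, show (1 : ℂ) - 2 * s = 2 * (1 / 2 - s) by ring]
    have hs0 : s ≠ 0 := fun h => by simp [h] at h0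
    have hs1 : (1 / 2 : ℂ) - s ≠ 0 := fun h => by
      rw [← sub_eq_zero.1 h] at h1
      norm_num at h1
    field_simp
    ring
  rw [hv]
  exact (integral_congr_ae hae).symm.trans hd.2

/-- The dominating functions are integrable. -/
theorem integrable_dominant (k : ℕ) {c : ℝ} (hc : 0 < c) :
    Integrable fun y : ℝ => |y| ^ k * (1 + |y|) * Real.exp (-(c * |y|)) := by
  have hb : ∀ (m : ℕ) (y : ℝ), |y| ^ m * Real.exp (-(c * |y|)) ≤ m.factorial / c ^ m := by
    intro m y
    have := Real.pow_div_factorial_le_exp (c * |y|) (by positivity) m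
    rw [div_le_iff₀ (by positivity), mul_pow] at this
    rw [Real.exp_neg, ← div_eq_mul_inv, div_le_div_iff₀ (Real.exp_pos _) (by positivity)]
    linarith [this]
  refine (integrable_inv_one_add_sq.const_mul ((k.factorial : ℝ) / c ^ k +
    ((k + 1).factorial : ℝ) / c ^ (k + 1) + (((k + 2).factorial : ℝ) / c ^ (k + 2) +
      ((k + 3).factorial : ℝ) / c ^ (k + 3)))).mono' (by fun_prop)
    (Eventually.of_forall fun y => ?_)
  rw [Real.norm_eq_abs, abs_of_nonneg (by positivity), ← div_eq_mul_inv,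
    le_div_iff₀ (by positivity)]
  have e : |y| ^ k * (1 + |y|) * Real.exp (-(c * |y|)) * (1 + y ^ 2) =
      |y| ^ k * Real.exp (-(c * |y|)) + |y| ^ (k + 1) * Real.exp (-(c * |y|)) +
        (|y| ^ (k + 2) * Real.exp (-(c * |y|)) + |y| ^ (k + 3) * Real.exp (-(c * |y|))) := by
    rw [← sq_abs y]
    ring
  rw [e]
  linarith [hb k y, hb (k + 1) y, hb (k + 2) y, hb (k + 3) y]

/-- The integrand of the moments. -/
def momentFn (k : ℕ) (z : ℂ) (y : ℝ) : ℂ := (y : ℂ) ^ k * hardyH y * cexp (z * y)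

/-- The moments of `hardyH`. -/
def hardyJ (k : ℕ) (z : ℂ) : ℂ := ∫ y, momentFn k z y

theorem continuous_momentFn (k : ℕ) (z : ℂ) : Continuous (momentFn k z) :=
  ((Complex.continuous_ofReal.pow k).mul
    (Complex.continuous_ofReal.comp continuous_hardyH)).mul (by fun_prop)

theorem exists_norm_momentFn_le : ∃ C, 0 ≤ C ∧ ∀ (k : ℕ) (z : ℂ) (r y : ℝ), |z.re| ≤ r →
    ‖momentFn k z y‖ ≤ C * (|y| ^ k * (1 + |y|) * Real.exp (-((π / 2 - r) * |y|))) := by
  obtain ⟨C, hC0, hC⟩ := exists_abs_hardyH_le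
  refine ⟨C, hC0, fun k z r y hz => ?_⟩
  rw [momentFn, norm_mul, norm_mul, norm_pow, Complex.norm_real, Complex.norm_real,
    Real.norm_eq_abs, Real.norm_eq_abs, Complex.norm_exp, show (z * y).re = z.re * y by simp]
  have h1 : z.re * y ≤ r * |y| :=
    (le_abs_self _).trans ((abs_mul _ _).le.trans (mul_le_mul_of_nonneg_right hz (abs_nonneg _)))
  calc |y| ^ k * |hardyH y| * Real.exp (z.re * y)
      ≤ |y| ^ k * (C * (1 + |y|) * Real.exp (-(π * |y| / 2))) * Real.exp (r * |y|) :=
        mul_le_mul (mul_le_mul_of_nonneg_left (hC y) (by positivity)) (Real.exp_le_exp.2 h1)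
          (Real.exp_pos _).le (by positivity)
    _ = _ := by
        rw [show -((π / 2 - r) * |y|) = -(π * |y| / 2) + r * |y| by ring, Real.exp_add]
        ring

theorem abs_re_lt_of_mem_strip {z : ℂ} (hz : z ∈ strip) : |z.re| < π / 2 :=
  abs_lt.2 hz

theorem integrable_momentFn (k : ℕ) {z : ℂ} (hz : z ∈ strip) : Integrable (momentFn k z) := by
  obtain ⟨C, _, hC⟩ := exists_norm_momentFn_le
  exact ((integrable_dominant k (sub_pos.2 (abs_re_lt_of_mem_strip hz))).const_mul C).mono'
    (continuous_momentFn k z).aestronglyMeasurable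
    (Eventually.of_forall fun y => hC k z _ y le_rfl)

theorem hasDerivAt_hardyJ (k : ℕ) {z : ℂ} (hz : z ∈ strip) :
    HasDerivAt (hardyJ k) (hardyJ (k + 1) z) z := by
  obtain ⟨C, _, hC⟩ := exists_norm_momentFn_le
  obtain ⟨r, hr, hr'⟩ := exists_between (abs_re_lt_of_mem_strip hz)
  refine (hasDerivAt_integral_of_dominated_loc_of_deriv_le (F := momentFn k)
    (F' := momentFn (k + 1)) (x₀ := z) (s := {w : ℂ | |w.re| < r})
    (bound := fun y => C * (|y| ^ (k + 1) * (1 + |y|) * Real.exp (-((π / 2 - r) * |y|))))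
    ((isOpen_lt (by fun_prop) continuous_const).mem_nhds hr)
    (Eventually.of_forall fun w => (continuous_momentFn k w).aestronglyMeasurable)
    (integrable_momentFn k hz) (continuous_momentFn (k + 1) z).aestronglyMeasurable
    (Eventually.of_forall fun y w hw => hC (k + 1) w r y (le_of_lt hw))
    ((integrable_dominant (k + 1) (sub_pos.2 hr')).const_mul C)
    (Eventually.of_forall fun y w _ => ?_)).2
  have : HasDerivAt (fun w => momentFn k w y)
      ((y : ℂ) ^ k * hardyH y * (cexp (w * y) * (1 * y))) w :=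
    (((hasDerivAt_id' w).mul_const (y : ℂ)).cexp).const_mul _
  refine this.congr_deriv ?_
  simp only [momentFn]
  ring

theorem continuousAt_thetaG {x : ℝ} (hx : 0 < x) : ContinuousAt thetaG x := by
  have h1 : ContinuousAt (fun x : ℝ => jacobiTheta (I * x)) x :=
    ContinuousAt.comp' (g := jacobiTheta) (continuousAt_jacobiTheta (by simpa using hx))
      (by fun_prop)
  have h2 : ContinuousAt (fun x : ℝ => (x : ℂ) ^ (-(1 / 2) : ℂ)) x :=
    continuousAt_ofReal_cpow_const x _ (Or.inr hx.ne')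
  exact (h1.sub continuousAt_const).sub h2

theorem mellin_thetaG_line (y : ℝ) :
    mellin thetaG ((1 / 4 : ℝ) + y * I) = 2 * (hardyH y : ℂ) := by
  rw [(hasMellin_thetaG (by simp) (by simp; norm_num)).2, ofReal_hardyH, linePt]
  congr 2
  push_cast
  ring

/-- **Mellin inversion**, on the imaginary axis. -/
theorem hardyJ_neg_I_mul (t : ℝ) :
    hardyJ 0 (-(I * t)) = π * cexp (t / 4) * thetaG (Real.exp t) := by
  have hx := Real.exp_pos t
  have h := mellinInv_mellin_eq (1 / 4) thetaG hx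
    (hasMellin_thetaG (by simp) (by simp; norm_num)).1 ?_ (continuousAt_thetaG hx)
  · rw [mellinInv] at h
    have hint : (∫ y : ℝ, (Real.exp t : ℂ) ^ (-((1 / 4 : ℝ) + y * I)) •
        mellin thetaG ((1 / 4 : ℝ) + y * I)) = 2 * cexp (-(t / 4)) * hardyJ 0 (-(I * t)) := by
      rw [hardyJ, ← integral_const_mul]
      congr 1
      funext y
      rw [mellin_thetaG_line, cpow_def_of_ne_zero (Complex.ofReal_ne_zero.2 hx.ne'),
        ← Complex.ofReal_log hx.le, Real.log_exp, smul_eq_mul, momentFn, pow_zero, one_mul,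
        show (t : ℂ) * -((1 / 4 : ℝ) + y * I) = -(t / 4) + -(I * t) * y by push_cast; ring,
        Complex.exp_add]
      ring
    rw [hint, Complex.exp_neg, Complex.real_smul] at h
    rw [← h]
    push_cast
    field_simp
  · have h0 := integrable_momentFn 0 (z := 0) (by simp [strip, pi_pos])
    refine (h0.const_mul 2).congr (Eventually.of_forall fun y => ?_)
    simp only [mellin_thetaG_line]
    simp [momentFn]

/-- The `k`th derivative of `thetaRot`, expressed by moments. -/
def thetaSum (k : ℕ) (z : ℂ) : ℂ :=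
  hardyJ k z / π + (I / 4) ^ k * cexp (I * z / 4) + (-I / 4) ^ k * cexp (-I * z / 4)

theorem hasDerivAt_thetaSum (k : ℕ) {z : ℂ} (hz : z ∈ strip) :
    HasDerivAt (thetaSum k) (thetaSum (k + 1) z) z := by
  have h1 : ∀ a : ℂ, HasDerivAt (fun w => a ^ k * cexp (a * w)) (a ^ (k + 1) * cexp (a * z)) z := by
    intro a
    refine (((hasDerivAt_id' z).const_mul a).cexp.const_mul (a ^ k)).congr_deriv ?_
    ring
  have := (((hasDerivAt_hardyJ k hz).div_const (π : ℂ)).add (h1 (I / 4))).add (h1 (-I / 4))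
  unfold thetaSum
  simpa only [div_mul_eq_mul_div, Pi.add_def] using this

/-- **The identity on the strip.** -/
theorem thetaRot_eq {z : ℂ} (hz : z ∈ strip) : thetaRot z = thetaSum 0 z := by
  have h0 : (0 : ℂ) ∈ strip := by simp [strip, pi_pos]
  refine AnalyticOnNhd.eqOn_of_preconnected_of_frequently_eq
    (DifferentiableOn.analyticOnNhd
      (fun w hw => (differentiableAt_thetaRot hw).differentiableWithinAt) isOpen_strip)
    (DifferentiableOn.analyticOnNhd
      (fun w hw => (hasDerivAt_thetaSum 0 hw).differentiableAt.differentiableWithinAt) isOpen_strip)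
    isPreconnected_strip h0 ?_ hz
  have key : ∀ t : ℝ, thetaRot (-(I * t)) = thetaSum 0 (-(I * t)) := by
    intro t
    have e : I * -(I * (t : ℂ)) = t := by linear_combination (-(t : ℂ)) * I_mul_I
    have e' : -I * -(I * (t : ℂ)) = -t := by linear_combination (t : ℂ) * I_mul_I
    have hp : ((Real.exp t : ℝ) : ℂ) ^ (-(1 / 2) : ℂ) = cexp (-(t / 2)) := by
      rw [cpow_def_of_ne_zero (Complex.ofReal_ne_zero.2 (Real.exp_pos t).ne'),
        ← Complex.ofReal_log (Real.exp_pos t).le, Real.log_exp]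
      ring_nf
    have hm : cexp (t / 4) * cexp (-(t / 2)) = cexp (-t / 4) := by
      rw [← Complex.exp_add]; ring_nf
    rw [thetaRot, thetaSum, e, e', hardyJ_neg_I_mul, thetaG, hp, ← Complex.ofReal_exp, pow_zero,
      pow_zero, one_mul, one_mul, mul_assoc,
      mul_div_cancel_left₀ _ (Complex.ofReal_ne_zero.2 pi_pos.ne'), ← hm]
    ring
  have htend : Tendsto (fun t : ℝ => -(I * t)) (𝓝[≠] 0) (𝓝[≠] 0) := by
    refine tendsto_nhdsWithin_iff.2 ⟨tendsto_nhdsWithin_of_tendsto_nhds
      (Continuous.tendsto' (by fun_prop) _ _ (by simp)), ?_⟩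
    filter_upwards [self_mem_nhdsWithin] with t (ht : t ≠ 0)
    simpa using ht
  exact htend.frequently (Eventually.of_forall key).frequently

theorem iteratedDeriv_thetaRot (k : ℕ) :
    ∀ {z : ℂ}, z ∈ strip → iteratedDeriv k thetaRot z = thetaSum k z := by
  induction k with
  | zero => intro z hz; rw [iteratedDeriv_zero]; exact thetaRot_eq hz
  | succ k ih =>
    intro z hz
    rw [iteratedDeriv_succ]
    refine (((hasDerivAt_thetaSum k hz).congr_of_eventuallyEq ?_)).deriv
    filter_upwards [isOpen_strip.mem_nhds hz] with w hw using ih hw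

end FA.HardyZeros
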